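import Fermat.Agent.LT.T6.H179.LocRegSpec
import Fermat.Agent.LT.T6.H888.DiagReduce

/-!
# Row LT, tower T6, sub-leaf T6.18f.4 `NormOpenC179` (helper227) -- OFF-MAIN

`normOpen_of227 : NearC179 → NormOpenC179`: near a regular point `γ₀` of `GL₂(k)` either every
`γ` is (conjugate to) a norm from `GL₂(k')` or none is.

Proof (pure algebra, uses only `IsCyclicData`).  By `NearC179` (with `M = 1`) `γ` near `γ₀` is
conjugate to `γ₁ = t ^ l γ₀ = A + B γ₀`, `t = a + b γ₀`, `B ≠ 0`.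
* If `N δ ∼ i(γ₀)`: after an `s`-conjugation `N δ = i(γ₀)` exactly; `δ` commutes with
  `N δ` (`δ s(N δ) = N(δ) sˡ(δ)` and `i(γ₀)` is `s`-fixed), hence with `i(t)`; then
  `N(i(t) δ) = i(t) ^ l N(δ) = i(γ₁)`.
* If `N δ ∼ i(γ₁)`: after an `s`-conjugation `N δ = i(γ₁) = i(A) + i(B) i(γ₀)`; `δ` commutes with
  `i(γ₁)`, hence with `i(γ₀)` (`B ≠ 0`) and with `i(t)⁻¹`; `N(i(t)⁻¹ δ) = i(t) ^ (-l) i(γ₁) = i(γ₀)`.
-/

set_option autoImplicit false
set_option linter.unusedSectionVars false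
set_option linter.unusedVariables false

open scoped Matrix

noncomputable section

namespace Fermat.Agent.LT.T6.H227

open Fermat.Agent.LT.T6 Fermat.Agent.LT.T6.H179 Fermat.Agent.LT.T6.H783

/-! ## Twisted norms in a group -/

section Grp

variable {Γ : Type} [Group Γ] (σ : Γ →* Γ)

/-- `N_n(c δ) = c ^ n N_n(δ)` for a `σ`-fixed `c` which commutes with `δ`. -/
theorem twN_mul_fixed (c δ : Γ) (hc : σ c = c) (hcomm : c * δ = δ * c) (n : ℕ) :
    twN σ n (c * δ) = c ^ n * twN σ n δ := by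
  induction n with
  | zero => simp [twN]
  | succ n ih =>
    have hpow : δ * c ^ n = c ^ n * δ := by
      have : Commute c δ := hcomm
      exact (this.pow_left n).eq.symm
    show c * δ * σ (twN σ n (c * δ)) = c ^ (n + 1) * (δ * σ (twN σ n δ))
    rw [ih, map_mul, map_pow, hc, pow_succ']
    calc c * δ * (c ^ n * σ (twN σ n δ)) = c * (δ * c ^ n) * σ (twN σ n δ) := by
          simp only [mul_assoc]
      _ = c * c ^ n * (δ * σ (twN σ n δ)) := by rw [hpow]; simp only [mul_assoc]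

/-- After a twisted conjugation the norm is exactly the conjugate. -/
theorem twN_exact (l : ℕ) (hl : ∀ g : Γ, (σ^[l]) g = g) (x δ : Γ) :
    twN σ l (x * δ * (σ x)⁻¹) = x * twN σ l δ * x⁻¹ := by
  have := H888.twN_twConj888 σ x⁻¹ δ l
  rw [inv_inv, map_inv, hl] at this
  exact this

/-- `δ` commutes with its norm if the norm is `σ`-fixed. -/
theorem comm_norm (l : ℕ) (hl : ∀ g : Γ, (σ^[l]) g = g) (δ : Γ)
    (hfix : σ (twN σ l δ) = twN σ l δ) : δ * twN σ l δ = twN σ l δ * δ := by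
  have := H888.twN_mul_iterate888 σ δ l
  rwa [hfix, hl] at this

end Grp

/-! ## The two implications -/

section Alg

variable {k k' : Type} [Field k] [Field k']

theorem glAut_map_fixed (i : k →+* k') (s : k' ≃+* k') (hfix : ∀ x : k, s (i x) = i x)
    (g : GL (Fin 2) k) :
    glAut s (Matrix.GeneralLinearGroup.map i g) = Matrix.GeneralLinearGroup.map i g := by
  apply Matrix.GeneralLinearGroup.ext
  intro a b
  rw [H888.glAut_apply888]
  simp [Matrix.GeneralLinearGroup.map_apply, hfix]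

theorem map_val_lin (i : k →+* k') (t γ₀ : GL (Fin 2) k) (a b : k)
    (ht : (t : Matrix (Fin 2) (Fin 2) k)
      = a • (1 : Matrix (Fin 2) (Fin 2) k) + b • (γ₀ : Matrix (Fin 2) (Fin 2) k)) :
    ((Matrix.GeneralLinearGroup.map i t : GL (Fin 2) k') : Matrix (Fin 2) (Fin 2) k')
      = i a • (1 : Matrix (Fin 2) (Fin 2) k')
        + i b • ((Matrix.GeneralLinearGroup.map i γ₀ : GL (Fin 2) k') :
            Matrix (Fin 2) (Fin 2) k') := by
  ext p q
  have h := congrFun (congrFun ht p) q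
  simp only [Matrix.GeneralLinearGroup.map_apply, Matrix.add_apply, Matrix.smul_apply,
    smul_eq_mul] at h ⊢
  rw [h, map_add, map_mul, map_mul]
  congr 2
  by_cases hpq : p = q
  · subst hpq; simp
  · simp [Matrix.one_apply_ne hpq]

theorem gl_comm_iff (X Y : GL (Fin 2) k') :
    X * Y = Y * X ↔ Commute (X : Matrix (Fin 2) (Fin 2) k') (Y : Matrix (Fin 2) (Fin 2) k') := by
  constructor
  · intro h
    have := congrArg (fun z : GL (Fin 2) k' => (z : Matrix (Fin 2) (Fin 2) k')) h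
    simpa [Commute, SemiconjBy] using this
  · intro h
    apply Units.ext
    simpa [Commute, SemiconjBy] using h

/-- The core: if `t = a + b γ₀`, `γ₁ = A + B γ₀ = t ^ l γ₀`, `B ≠ 0`, then `γ₁` is a norm iff
`γ₀` is. -/
theorem isNormFrom_iff_of_lin (l : ℕ) (i : k →+* k') (s : k' ≃+* k')
    (hfix : ∀ x : k, s (i x) = i x) (hord : ∀ y : k', (s ^ l) y = y)
    (γ₀ t : GL (Fin 2) k) (a b A B : k) (hB : B ≠ 0)
    (ht : (t : Matrix (Fin 2) (Fin 2) k)
      = a • (1 : Matrix (Fin 2) (Fin 2) k) + b • (γ₀ : Matrix (Fin 2) (Fin 2) k))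
    (hγ₁ : ((t ^ l * γ₀ : GL (Fin 2) k) : Matrix (Fin 2) (Fin 2) k)
      = A • (1 : Matrix (Fin 2) (Fin 2) k) + B • (γ₀ : Matrix (Fin 2) (Fin 2) k)) :
    IsNormFrom l i s (t ^ l * γ₀) ↔ IsNormFrom l i s γ₀ := by
  have hl : ∀ g : GL (Fin 2) k', ((glAut s)^[l]) g = g :=
    H888.glAut_iterate_eq_self888 s l hord
  set ι := Matrix.GeneralLinearGroup.map (n := Fin 2) i with hι
  have hιfix : ∀ g : GL (Fin 2) k, glAut s (ι g) = ι g := glAut_map_fixed i s hfix
  have hT : ((ι t : GL (Fin 2) k') : Matrix (Fin 2) (Fin 2) k')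
      = i a • (1 : Matrix (Fin 2) (Fin 2) k')
        + i b • ((ι γ₀ : GL (Fin 2) k') : Matrix (Fin 2) (Fin 2) k') :=
    map_val_lin i t γ₀ a b ht
  have hG₁ : ((ι (t ^ l * γ₀) : GL (Fin 2) k') : Matrix (Fin 2) (Fin 2) k')
      = i A • (1 : Matrix (Fin 2) (Fin 2) k')
        + i B • ((ι γ₀ : GL (Fin 2) k') : Matrix (Fin 2) (Fin 2) k') :=
    map_val_lin i (t ^ l * γ₀) γ₀ A B hγ₁
  have hiB : i B ≠ 0 := by
    intro h
    exact hB ((map_eq_zero i).1 h)
  -- commuting with `ι γ₀` implies commuting with `ι t`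
  have comm_t : ∀ δ : GL (Fin 2) k', δ * ι γ₀ = ι γ₀ * δ → ι t * δ = δ * ι t := by
    intro δ h
    rw [gl_comm_iff] at h ⊢
    rw [hT]
    exact ((Commute.one_right _).smul_right _).add_right (h.smul_right _) |>.symm
  constructor
  · -- `γ₁` a norm ⇒ `γ₀` a norm
    rintro ⟨δ, hδ⟩
    obtain ⟨x, hx⟩ := isConj_iff.1 hδ
    set δ' := x * δ * (glAut s x)⁻¹ with hδ'
    have hN : twN (glAut s) l δ' = ι (t ^ l * γ₀) := by
      rw [hδ', twN_exact (glAut s) l hl]; exact hx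
    have hc1 : δ' * ι (t ^ l * γ₀) = ι (t ^ l * γ₀) * δ' := by
      have := comm_norm (glAut s) l hl δ' (by rw [hN, hιfix])
      rwa [hN] at this
    have hc0 : δ' * ι γ₀ = ι γ₀ * δ' := by
      rw [gl_comm_iff] at hc1 ⊢
      rw [hG₁] at hc1
      have h1 : Commute (δ' : Matrix (Fin 2) (Fin 2) k')
          (i B • ((ι γ₀ : GL (Fin 2) k') : Matrix (Fin 2) (Fin 2) k')) := by
        have := hc1.sub_right ((Commute.one_right (δ' : Matrix (Fin 2) (Fin 2) k')).smul_right (i A))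
        simpa using this
      have h2 := h1.smul_right (i B)⁻¹
      rwa [smul_smul, inv_mul_cancel₀ hiB, one_smul] at h2
    have hct : ι t * δ' = δ' * ι t := comm_t δ' hc0
    have hct' : (ι t)⁻¹ * δ' = δ' * (ι t)⁻¹ := by
      have : Commute (ι t) δ' := hct
      exact this.inv_left.eq
    refine ⟨(ι t)⁻¹ * δ', ?_⟩
    have hNN : twNorm s l ((ι t)⁻¹ * δ') = ι γ₀ := by
      show twN (glAut s) l ((ι t)⁻¹ * δ') = ι γ₀
      rw [twN_mul_fixed (glAut s) (ι t)⁻¹ δ' (by rw [map_inv, hιfix]) hct' l, hN, map_mul,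
        map_pow]
      group
    rw [hNN]
  · -- `γ₀` a norm ⇒ `γ₁` a norm
    rintro ⟨δ, hδ⟩
    obtain ⟨x, hx⟩ := isConj_iff.1 hδ
    set δ' := x * δ * (glAut s x)⁻¹ with hδ'
    have hN : twN (glAut s) l δ' = ι γ₀ := by
      rw [hδ', twN_exact (glAut s) l hl]; exact hx
    have hc0 : δ' * ι γ₀ = ι γ₀ * δ' := by
      have := comm_norm (glAut s) l hl δ' (by rw [hN, hιfix])
      rwa [hN] at this
    have hct : ι t * δ' = δ' * ι t := comm_t δ' hc0
    refine ⟨ι t * δ', ?_⟩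
    have hNN : twNorm s l (ι t * δ') = ι (t ^ l * γ₀) := by
      show twN (glAut s) l (ι t * δ') = ι (t ^ l * γ₀)
      rw [twN_mul_fixed (glAut s) (ι t) δ' (hιfix t) hct l, hN, map_mul, map_pow]
    rw [hNN]

theorem isNormFrom_conj (l : ℕ) (i : k →+* k') (s : k' ≃+* k') (g γ : GL (Fin 2) k) :
    IsNormFrom l i s (g * γ * g⁻¹) ↔ IsNormFrom l i s γ := by
  have hc : IsConj (Matrix.GeneralLinearGroup.map (n := Fin 2) i γ)
      (Matrix.GeneralLinearGroup.map (n := Fin 2) i (g * γ * g⁻¹)) :=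
    isConj_iff.2 ⟨Matrix.GeneralLinearGroup.map (n := Fin 2) i g, by simp [map_mul, map_inv]⟩
  constructor
  · rintro ⟨δ, hδ⟩
    exact ⟨δ, hδ.trans hc.symm⟩
  · rintro ⟨δ, hδ⟩
    exact ⟨δ, hδ.trans hc⟩

end Alg

/-! ## The leaf -/

/-- **T6.18f.4**: `NearC179 → NormOpenC179`. -/
theorem normOpen_of227 (hnear : NearC179) : NormOpenC179 := by
  intro k k' _ _ _ _ q l e i s hk hk' hext γ₀ hreg
  obtain ⟨N, hN⟩ := hnear k q hk l hext.cyc.pos γ₀ hreg 1
  refine ⟨N, fun γ hγ => ?_⟩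
  obtain ⟨g, t, a, b, A, B, -, -, -, hB1, ht, hγ₁, rfl⟩ := hN γ hγ
  have hB : B ≠ 0 := by
    rintro rfl
    rw [zero_sub, Valuation.map_neg, map_one, ← WithZero.exp_zero, WithZero.exp_le_exp] at hB1
    omega
  rw [isNormFrom_conj]
  exact isNormFrom_iff_of_lin l i s hext.cyc.fix_i hext.cyc.order γ₀ t a b A B hB ht hγ₁

end Fermat.Agent.LT.T6.H227

end
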