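import Mathlib
import Fermat.Agent.LT.T6.Spec

/-!
# Row LT, tower T6: abstract UNFOLDING of orbit sums (helper227) -- shared lemma, OFF-MAIN

`IsOrbSumGen s U C φ δ c` (T6/Spec) says that `c` is the weighted sum
`∑ φ(y) [T_y^c : T_y^c ∩ U]` over representatives `y` of the `U`-twisted-conjugacy classes in the
twisted conjugacy class of `δ`.  This file proves, by pure group theory, that such a `c` is the
UNWEIGHTED sum of `φ (x⁻¹ δ s(x))` over any system `X` of representatives of the double cosets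
`Λ \ Γ / U`, where `Λ` is a complement of the compact part `T_δ^c` in the twisted centraliser
`T_δ` (`T_δ = Λ · T_δ^c`, `Λ ∩ T_δ^c = 1`).

For `GL₂` over a local field: hyperbolic `δ = diag(d₁, d₂)`: `Λ = {diag(ϖ^a, ϖ^b)}`,
`X = {n(x) : x ∈ k'/𝒪'}` (Iwasawa); elliptic unramified: `Λ = ⟨ϖ⟩`, `X` = representatives of the
vertices of the tree; elliptic ramified: `Λ = ⟨ϖ_L⟩`.

Main statements: `orbSum_unfold` (Finset form) and `orbSum_unfold_finsum`.
-/

set_option autoImplicit false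

open scoped Classical

noncomputable section

namespace Fermat.Agent.LT.T6.H227

open Fermat.Agent.LT.T6

variable {Γ : Type} [Group Γ]

/-- The twisted conjugate `x⁻¹ δ s(x)` (a right action of `Γ` on itself). -/
def twc (s : Γ →* Γ) (δ x : Γ) : Γ := x⁻¹ * δ * s x

theorem twc_def (s : Γ →* Γ) (δ x : Γ) : twc s δ x = x⁻¹ * δ * s x := rfl

@[simp] theorem twc_one (s : Γ →* Γ) (δ : Γ) : twc s δ 1 = δ := by simp [twc]

theorem twc_twc (s : Γ →* Γ) (δ a b : Γ) : twc s (twc s δ a) b = twc s δ (a * b) := by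
  simp [twc, mul_assoc]

theorem twc_eq_iff (s : Γ →* Γ) (δ a b : Γ) :
    twc s δ a = twc s δ b ↔ twc s δ (a * b⁻¹) = δ := by
  constructor
  · intro h
    have := congrArg (fun y => twc s y b⁻¹) h
    simp only [twc_twc] at this
    rw [this]; simp
  · intro h
    have := congrArg (fun y => twc s y b) h
    simp only [twc_twc] at this
    simpa [mul_assoc] using this

/-- The hypotheses of the unfolding: `U` is a subgroup (as a predicate), `C δ` is a subgroup of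
the twisted centraliser of `δ` ("compact part"), `C` is equivariant along the twisted class of
`δ`, the part of the twisted centraliser of a point of the class which lies in `U` lies in the
compact part, `Lam` is a subgroup of the twisted centraliser of `δ` which is a complement of the
compact part, and `X` is a system of representatives of `Lam \ Γ / U`. -/
structure UnfoldData (s : Γ →* Γ) (U : Γ → Prop) (C : Γ → Γ → Prop) (δ : Γ)
    (Lam : Γ → Prop) (X : Set Γ) : Prop where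
  U_one : U 1
  U_mul : ∀ a b : Γ, U a → U b → U (a * b)
  U_inv : ∀ a : Γ, U a → U a⁻¹
  C_cent : ∀ t : Γ, C δ t → twc s δ t = δ
  C_mul : ∀ a b : Γ, C δ a → C δ b → C δ (a * b)
  C_inv : ∀ a : Γ, C δ a → C δ a⁻¹
  C_conj : ∀ x t : Γ, C (twc s δ x) t ↔ C δ (x * t * x⁻¹)
  U_C : ∀ x u : Γ, U u → twc s (twc s δ x) u = twc s δ x → C (twc s δ x) u
  Lam_mul : ∀ a b : Γ, Lam a → Lam b → Lam (a * b)
  Lam_inv : ∀ a : Γ, Lam a → Lam a⁻¹
  Lam_cent : ∀ l : Γ, Lam l → twc s δ l = δ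
  Lam_C : ∀ l : Γ, Lam l → C δ l → l = 1
  decomp : ∀ t : Γ, twc s δ t = δ → ∃ l κ : Γ, Lam l ∧ C δ κ ∧ t = l * κ
  cover : ∀ g : Γ, ∃ x ∈ X, ∃ l u : Γ, Lam l ∧ U u ∧ g = l * x * u
  uniq : ∀ x ∈ X, ∀ x' ∈ X, (∃ l u : Γ, Lam l ∧ U u ∧ x' = l * x * u) → x = x'

section

variable {s : Γ →* Γ} {U : Γ → Prop} {C : Γ → Γ → Prop} {δ : Γ} {Lam : Γ → Prop} {X : Set Γ}

/-- The representative in `X` of the double coset of `g`. -/
def UnfoldData.rep (D : UnfoldData s U C δ Lam X) (g : Γ) : Γ := (D.cover g).choose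

theorem UnfoldData.rep_mem (D : UnfoldData s U C δ Lam X) (g : Γ) : D.rep g ∈ X :=
  (D.cover g).choose_spec.1

theorem UnfoldData.rep_spec (D : UnfoldData s U C δ Lam X) (g : Γ) :
    ∃ l u : Γ, Lam l ∧ U u ∧ g = l * D.rep g * u :=
  (D.cover g).choose_spec.2

theorem UnfoldData.cent_mul (_D : UnfoldData s U C δ Lam X) {a b : Γ} (ha : twc s δ a = δ)
    (hb : twc s δ b = δ) : twc s δ (a * b) = δ := by
  rw [← twc_twc, ha, hb]

theorem UnfoldData.cent_inv (_D : UnfoldData s U C δ Lam X) {a : Γ} (ha : twc s δ a = δ) :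
    twc s δ a⁻¹ = δ := by
  have := (twc_eq_iff s δ 1 a).1 (by rw [twc_one, ha])
  simpa using this


/-- The coset `t U`. -/
def coset (U : Γ → Prop) (t : Γ) : Set Γ := {g : Γ | ∃ u : Γ, U u ∧ g = t * u}

theorem UnfoldData.self_mem_coset (D : UnfoldData s U C δ Lam X) (t : Γ) : t ∈ coset U t :=
  ⟨1, D.U_one, by simp⟩

theorem UnfoldData.coset_eq_of (D : UnfoldData s U C δ Lam X) {t w : Γ} (hw : U w) :
    coset U (t * w) = coset U t := by
  ext g
  constructor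
  · rintro ⟨u, hu, rfl⟩
    exact ⟨w * u, D.U_mul _ _ hw hu, by simp [mul_assoc]⟩
  · rintro ⟨u, hu, rfl⟩
    exact ⟨w⁻¹ * u, D.U_mul _ _ (D.U_inv _ hw) hu, by simp [mul_assoc]⟩

/-- The fibre of the class of `twc s δ g`: the representatives `x ∈ X` whose twisted conjugate
of `δ` is `U`-twisted-conjugate to `twc s δ g`. -/
def fib (s : Γ →* Γ) (U : Γ → Prop) (δ : Γ) (X : Set Γ) (g : Γ) : Set Γ :=
  {x | x ∈ X ∧ ∃ u : Γ, U u ∧ twc s δ x = twc s (twc s δ g) u}

theorem UnfoldData.fib_iff (_D : UnfoldData s U C δ Lam X) (g x : Γ) :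
    (∃ u : Γ, U u ∧ twc s δ x = twc s (twc s δ g) u) ↔
      ∃ τ u : Γ, twc s δ τ = δ ∧ U u ∧ x = τ * g * u := by
  constructor
  · rintro ⟨u, hu, h⟩
    rw [twc_twc, twc_eq_iff] at h
    exact ⟨x * (g * u)⁻¹, u, h, hu, by simp [mul_assoc]⟩
  · rintro ⟨τ, u, hτ, hu, rfl⟩
    refine ⟨u, hu, ?_⟩
    rw [twc_twc, mul_assoc, ← twc_twc, hτ]

theorem UnfoldData.C_sub (D : UnfoldData s U C δ Lam X) (g : Γ) {t : Γ}
    (ht : C (twc s δ g) t) : C δ (g * t * g⁻¹) := (D.C_conj g t).1 ht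

/-- **Fibre count.**  The number of representatives in the fibre of the class of
`y = twc s δ g` is the index `[T_y^c : T_y^c ∩ U]`. -/
theorem UnfoldData.fib_ncard (D : UnfoldData s U C δ Lam X) (g : Γ) :
    (fib s U δ X g).ncard = cIndex U C (twc s δ g) := by
  unfold cIndex
  symm
  refine Set.ncard_congr (fun c hc => D.rep (g * hc.choose)) ?_ ?_ ?_
  · -- lands in the fibre
    intro c hc
    obtain ⟨ht, -⟩ := hc.choose_spec
    set t := hc.choose with htdef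
    refine ⟨D.rep_mem _, ?_⟩
    obtain ⟨l, u, hl, hu, hglu⟩ := D.rep_spec (g * t)
    rw [D.fib_iff]
    refine ⟨l⁻¹ * (g * t * g⁻¹), u⁻¹, ?_, D.U_inv _ hu, ?_⟩
    · exact D.cent_mul (D.cent_inv (D.Lam_cent _ hl)) (D.C_cent _ (D.C_sub g ht))
    · show D.rep (g * t) = l⁻¹ * (g * t * g⁻¹) * g * u⁻¹
      generalize D.rep (g * t) = r at hglu ⊢
      have h2 : g * t * g⁻¹ * g = g * t := by simp [mul_assoc]
      rw [mul_assoc l⁻¹, h2, hglu]; simp [mul_assoc]
  · -- injective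
    intro c c' hc hc' hEq
    obtain ⟨ht, hct⟩ := hc.choose_spec
    obtain ⟨ht', hct'⟩ := hc'.choose_spec
    set t := hc.choose with htdef
    set t' := hc'.choose with htdef'
    have hEq' : D.rep (g * t) = D.rep (g * t') := hEq
    obtain ⟨l, u, hl, hu, hglu⟩ := D.rep_spec (g * t)
    obtain ⟨l', u', hl', hu', hglu'⟩ := D.rep_spec (g * t')
    rw [← hEq'] at hglu'
    -- g t' = l' l⁻¹ (g t) u⁻¹ u'
    set m := l' * l⁻¹ with hm
    set w := u⁻¹ * u' with hw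
    have hmL : Lam m := D.Lam_mul _ _ hl' (D.Lam_inv _ hl)
    have hwU : U w := D.U_mul _ _ (D.U_inv _ hu) hu'
    have key : g * t' = m * (g * t) * w := by
      generalize D.rep (g * t) = r at hglu hglu'
      rw [hglu', hglu]; simp [hm, hw, mul_assoc]
    -- κ, κ'
    have hκ : C δ (g * t * g⁻¹) := D.C_sub g ht
    have hκ' : C δ (g * t' * g⁻¹) := D.C_sub g ht'
    -- g w g⁻¹ = κ⁻¹ m⁻¹ κ'
    have hgw : g * w * g⁻¹ = (g * t * g⁻¹)⁻¹ * m⁻¹ * (g * t' * g⁻¹) := by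
      rw [key]; simp [mul_assoc]
    have hgwT : twc s δ (g * w * g⁻¹) = δ := by
      rw [hgw]
      exact D.cent_mul (D.cent_mul (D.cent_inv (D.C_cent _ hκ))
        (D.cent_inv (D.Lam_cent _ hmL))) (D.C_cent _ hκ')
    have hwstab : twc s (twc s δ g) w = twc s δ g := by
      rw [twc_twc]
      have : g * w = (g * w * g⁻¹) * g := by simp [mul_assoc]
      rw [this, ← twc_twc, hgwT]
    have hwC : C δ (g * w * g⁻¹) := D.C_sub g (D.U_C g w hwU hwstab)
    -- m⁻¹ = κ (g w g⁻¹) κ'⁻¹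
    have hminv : m⁻¹ = (g * t * g⁻¹) * (g * w * g⁻¹) * (g * t' * g⁻¹)⁻¹ := by
      rw [hgw]; simp [mul_assoc]
    have hmC : C δ m⁻¹ := by
      rw [hminv]
      exact D.C_mul _ _ (D.C_mul _ _ hκ hwC) (D.C_inv _ hκ')
    have hm1 : m⁻¹ = 1 := D.Lam_C _ (D.Lam_inv _ hmL) hmC
    have hm1' : m = 1 := by simpa using hm1
    have ht't : t' = t * w := by
      have := key
      rw [hm1', one_mul, mul_assoc] at this
      exact mul_left_cancel this
    rw [hct, hct', ht't]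
    exact (D.coset_eq_of (t := t) hwU).symm
  · -- surjective
    rintro x ⟨hxX, hx⟩
    rw [D.fib_iff] at hx
    obtain ⟨τ, u, hτ, hu, rfl⟩ := hx
    obtain ⟨l, κ, hl, hκ, rfl⟩ := D.decomp τ hτ
    have htC : C (twc s δ g) (g⁻¹ * κ * g) := by
      rw [D.C_conj]
      have : g * (g⁻¹ * κ * g) * g⁻¹ = κ := by simp [mul_assoc]
      rw [this]; exact hκ
    have hc : ∃ t : Γ, C (twc s δ g) t ∧ coset U (g⁻¹ * κ * g) = {g' : Γ | ∃ u : Γ, U u ∧ g' = t * u} :=
      ⟨g⁻¹ * κ * g, htC, rfl⟩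
    refine ⟨coset U (g⁻¹ * κ * g), hc, ?_⟩
    obtain ⟨ht₁, hct₁⟩ := hc.choose_spec
    set t₁ := hc.choose with ht₁def
    show D.rep (g * t₁) = l * κ * g * u
    -- t₁ ∈ coset t
    have hmem : t₁ ∈ coset U (g⁻¹ * κ * g) := by
      rw [hct₁]; exact D.self_mem_coset t₁
    obtain ⟨w, hw, ht₁w⟩ := hmem
    obtain ⟨l₁, u₁, hl₁, hu₁, hg⟩ := D.rep_spec (g * t₁)
    refine D.uniq _ (D.rep_mem _) _ hxX ⟨l * l₁, u₁ * w⁻¹ * u, D.Lam_mul _ _ hl hl₁,
      D.U_mul _ _ (D.U_mul _ _ hu₁ (D.U_inv _ hw)) hu, ?_⟩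
    have h1 : l₁ * D.rep (g * t₁) * u₁ = g * t₁ := hg.symm
    calc l * κ * g * u = l * (g * (g⁻¹ * κ * g) * w) * w⁻¹ * u := by simp [mul_assoc]
      _ = l * (g * t₁) * w⁻¹ * u := by rw [ht₁w]; simp [mul_assoc]
      _ = l * (l₁ * D.rep (g * t₁) * u₁) * w⁻¹ * u := by rw [h1]
      _ = l * l₁ * D.rep (g * t₁) * (u₁ * w⁻¹ * u) := by simp [mul_assoc]


/-- **UNFOLDING (Finset form).**  If `c` is the orbit sum of `φ` at `δ` (weights
`[T_y^c : T_y^c ∩ U]`), then `c` is the unweighted sum of `φ (x⁻¹ δ s(x))` over any finite set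
`S` of representatives `x ∈ X` of `Lam \ Γ / U` which contains all those with
`φ (x⁻¹ δ s(x)) ≠ 0`. -/
theorem orbSum_unfold (D : UnfoldData s U C δ Lam X) (φ : Γ → ℂ)
    (hφ : ∀ u y : Γ, U u → φ (u⁻¹ * y * s u) = φ y) (c : ℂ)
    (h : IsOrbSumGen s U C φ δ c) (S : Finset Γ) (hSX : ∀ x ∈ S, x ∈ X)
    (hS : ∀ x ∈ X, φ (x⁻¹ * δ * s x) ≠ 0 → x ∈ S) :
    c = ∑ x ∈ S, φ (x⁻¹ * δ * s x) := by
  obtain ⟨R, h1, h2, h3, rfl⟩ := h
  -- the relation "the twisted conjugate by `x` lies in the `U`-class of `y`"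
  set P : Γ → Γ → Prop := fun y x => ∃ u : Γ, U u ∧ x⁻¹ * δ * s x = u⁻¹ * y * s u with hP
  have hA : ∀ x ∈ S, φ (x⁻¹ * δ * s x) = ∑ y ∈ R, if P y x then φ y else 0 := by
    intro x _
    by_cases hx0 : φ (x⁻¹ * δ * s x) = 0
    · rw [hx0]
      symm
      apply Finset.sum_eq_zero
      intro y _
      split_ifs with hy
      · obtain ⟨u, hu, he⟩ := hy
        rw [← hφ u y hu, ← he, hx0]
      · rfl
    · obtain ⟨y', hy'R, u', hu', he'⟩ := h3 _ ⟨x, rfl⟩ hx0
      rw [Finset.sum_eq_single y']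
      · rw [if_pos ⟨u', hu', he'⟩, ← hφ u' y' hu', ← he']
      · intro y hyR hne
        rw [if_neg]
        rintro ⟨u, hu, he⟩
        apply hne
        symm
        apply h2 y' hy'R y hyR
        refine ⟨u' * u⁻¹, D.U_mul _ _ hu' (D.U_inv _ hu), ?_⟩
        have : y = u * (x⁻¹ * δ * s x) * (s u)⁻¹ := by rw [he]; simp [mul_assoc]
        rw [this, he']; simp [mul_assoc]
      · intro hn; exact absurd hy'R hn
  rw [Finset.sum_congr rfl hA, Finset.sum_comm]
  apply Finset.sum_congr rfl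
  intro y hyR
  rw [Finset.sum_ite, Finset.sum_const, Finset.sum_const_zero, add_zero, nsmul_eq_mul, mul_comm]
  by_cases hy0 : φ y = 0
  · rw [hy0, mul_zero, mul_zero]
  · congr 1
    obtain ⟨g, rfl⟩ := h1 y hyR
    have hfib : (↑(S.filter fun x => P (g⁻¹ * δ * s g) x) : Set Γ) = fib s U δ X g := by
      ext x
      simp only [Finset.coe_filter, Set.mem_ofPred_eq, fib, twc]
      constructor
      · rintro ⟨hxS, hx⟩
        exact ⟨hSX x hxS, hx⟩
      · rintro ⟨hxX, hx⟩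
        refine ⟨hS x hxX ?_, hx⟩
        obtain ⟨u, hu, he⟩ := hx
        rw [he, hφ u _ hu]; exact hy0
    have := D.fib_ncard g
    rw [← hfib, Set.ncard_coe_finset] at this
    have this' : (S.filter fun x => P (g⁻¹ * δ * s g) x).card = cIndex U C (g⁻¹ * δ * s g) := this
    exact_mod_cast this'.symm

/-- **UNFOLDING (finsum form).** -/
theorem orbSum_unfold_finsum (D : UnfoldData s U C δ Lam X) (φ : Γ → ℂ)
    (hφ : ∀ u y : Γ, U u → φ (u⁻¹ * y * s u) = φ y) (c : ℂ)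
    (h : IsOrbSumGen s U C φ δ c)
    (hfin : {x | x ∈ X ∧ φ (x⁻¹ * δ * s x) ≠ 0}.Finite) :
    c = ∑ᶠ x ∈ X, φ (x⁻¹ * δ * s x) := by
  have h0 := orbSum_unfold D φ hφ c h hfin.toFinset
    (fun x hx => ((Set.Finite.mem_toFinset hfin).1 hx).1)
    (fun x hxX hx => (Set.Finite.mem_toFinset hfin).2 ⟨hxX, hx⟩)
  rw [h0]
  symm
  apply finsum_mem_eq_sum_of_subset
  · rintro x ⟨hxX, hx⟩
    exact (Set.Finite.mem_toFinset hfin).2 ⟨hxX, hx⟩
  · intro x hx
    exact ((Set.Finite.mem_toFinset hfin).1 hx).1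

end

end Fermat.Agent.LT.T6.H227

end
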