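import Mathlib
import Fermat.Agent.LT.T6.Spec
import Fermat.Agent.LT.T6.H288.HypSpec
import Fermat.Agent.LT.T6.H944.OrbSumUniq
import Fermat.Agent.LT.T6.H546.Iwasawa
import Fermat.Agent.LT.T6.H227.Unfold

/-!
# Row LT, tower T6, sub-leaf T6.12e `OrbitParamC` (helper227, spare) -- OFF-MAIN

The twisted orbit sum at a diagonal element `δ₀ = diag(d₁, d₂)`, `N d₁ ≠ N d₂`, is the plain sum
over `b ∈ k'/𝒪'` of `Φ [[d₁, d₁ s(b) - d₂ b], [0, d₂]]`.

Proof: the abstract unfolding `H227.orbSum_unfold_finsum` for `Γ = GL₂(k')`, `U = GL₂(𝒪')`,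
`Lam = {diag(ϖ^a, ϖ^b)}`, `X = {n(b) : b ∈ B}`; Iwasawa decomposition (helper546); the twisted
centraliser of `δ₀` is the group of the diagonal matrices with `s`-fixed entries.
-/

set_option autoImplicit false
set_option linter.unusedSectionVars false
set_option linter.unusedVariables false

open scoped Matrix

noncomputable section

namespace Fermat.Agent.LT.T6.H227

open Fermat.Agent.LT.T6 Fermat.Agent.LT.T6.H288

variable {K : Type} [Field K] [Valued K Γ₀]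

/-! ## 1. Matrices -/

/-- The upper unipotent matrix `n(x) = [[1, x], [0, 1]]`. -/
def nG (x : K) : GL (Fin 2) K :=
  ⟨!![1, x; 0, 1], !![1, -x; 0, 1],
    by ext i j; fin_cases i <;> fin_cases j <;> simp [Matrix.mul_apply, Fin.sum_univ_two],
    by ext i j; fin_cases i <;> fin_cases j <;> simp [Matrix.mul_apply, Fin.sum_univ_two]⟩

@[simp] theorem nG_val (x : K) : ((nG x : GL (Fin 2) K) : Matrix (Fin 2) (Fin 2) K) = !![1, x; 0, 1] :=
  rfl

@[simp] theorem nG_inv_val (x : K) :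
    (((nG x)⁻¹ : GL (Fin 2) K) : Matrix (Fin 2) (Fin 2) K) = !![1, -x; 0, 1] := rfl

/-- The diagonal matrix `diag(a, b)`, `a, b ≠ 0`. -/
def dG (a b : K) (ha : a ≠ 0) (hb : b ≠ 0) : GL (Fin 2) K :=
  ⟨!![a, 0; 0, b], !![a⁻¹, 0; 0, b⁻¹],
    by ext i j; fin_cases i <;> fin_cases j <;> simp [Matrix.mul_apply, Fin.sum_univ_two, ha, hb],
    by ext i j; fin_cases i <;> fin_cases j <;> simp [Matrix.mul_apply, Fin.sum_univ_two, ha, hb]⟩

@[simp] theorem dG_val (a b : K) (ha : a ≠ 0) (hb : b ≠ 0) :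
    ((dG a b ha hb : GL (Fin 2) K) : Matrix (Fin 2) (Fin 2) K) = !![a, 0; 0, b] := rfl

@[simp] theorem dG_inv_val (a b : K) (ha : a ≠ 0) (hb : b ≠ 0) :
    (((dG a b ha hb)⁻¹ : GL (Fin 2) K) : Matrix (Fin 2) (Fin 2) K) = !![a⁻¹, 0; 0, b⁻¹] := rfl

theorem glAut_val (s : K ≃+* K) (g : GL (Fin 2) K) :
    ((glAut s g : GL (Fin 2) K) : Matrix (Fin 2) (Fin 2) K)
      = (g : Matrix (Fin 2) (Fin 2) K).map s := rfl

theorem gl_ext {g h : GL (Fin 2) K}
    (e : (g : Matrix (Fin 2) (Fin 2) K) = (h : Matrix (Fin 2) (Fin 2) K)) : g = h :=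
  Units.ext e

/-- An element of `GL₂` whose matrix is upper triangular with diagonal `a, b`: `a, b ≠ 0`. -/
theorem diag_ne_zero_of_upper (g : GL (Fin 2) K) (a b u : K)
    (hg : (g : Matrix (Fin 2) (Fin 2) K) = !![a, u; 0, b]) : a ≠ 0 ∧ b ≠ 0 := by
  have h := Matrix.GeneralLinearGroup.det_ne_zero g
  rw [hg, Matrix.det_fin_two_of] at h
  constructor
  · rintro rfl; apply h; ring
  · rintro rfl; apply h; ring

/-! ## 2. Valuation -/

theorem v_le_one_of_sub_one {x : K} (h : Valued.v (x - 1) ≤ 1) : Valued.v x ≤ 1 := by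
  have : x = (x - 1) + 1 := by ring
  rw [this]
  exact Valuation.map_add_le _ h (by simp)

theorem v_le_one_of_sub_zero {x : K} (h : Valued.v (x - 0) ≤ 1) : Valued.v x ≤ 1 := by
  simpa using h

/-- Entries of an element of `U(0)` are integral. -/
theorem inU_zero_entry {g : GL (Fin 2) K} (hg : InU 0 g) (i j : Fin 2) :
    Valued.v ((g : Matrix (Fin 2) (Fin 2) K) i j) ≤ 1 := by
  have h := (hg i j).1
  have he : WithZero.exp (-((0 : ℕ) : ℤ)) = (1 : Γ₀) := by simp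
  rw [he] at h
  by_cases hij : i = j
  · subst hij
    rw [Matrix.one_apply_eq] at h
    exact v_le_one_of_sub_one h
  · rw [Matrix.one_apply_ne hij] at h
    exact v_le_one_of_sub_zero h

theorem inU_zero_inv_entry {g : GL (Fin 2) K} (hg : InU 0 g) (i j : Fin 2) :
    Valued.v (((g⁻¹ : GL (Fin 2) K) : Matrix (Fin 2) (Fin 2) K) i j) ≤ 1 :=
  inU_zero_entry (H944.inU_inv944 0 g hg) i j

theorem inU_zero_one : InU 0 (1 : GL (Fin 2) K) := by
  apply H546.inU_zero_of_integral_h546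
  · intro i j
    rw [Units.val_one, Matrix.one_apply]
    split_ifs <;> simp
  · intro i j
    rw [inv_one, Units.val_one, Matrix.one_apply]
    split_ifs <;> simp

theorem nG_inU {x : K} (hx : Valued.v x ≤ 1) : InU 0 (nG x) := by
  apply H546.inU_zero_of_integral_h546
  · intro i j
    fin_cases i <;> fin_cases j <;> simp [hx]
  · intro i j
    rw [nG_inv_val]
    fin_cases i <;> fin_cases j <;> simp [hx]

theorem dG_inU {a b : K} (ha : Valued.v a = 1) (hb : Valued.v b = 1) (ha0 : a ≠ 0)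
    (hb0 : b ≠ 0) : InU 0 (dG a b ha0 hb0) := by
  apply H546.inU_zero_of_integral_h546
  · intro i j
    fin_cases i <;> fin_cases j <;> simp [ha, hb]
  · intro i j
    rw [dG_inv_val]
    fin_cases i <;> fin_cases j <;> simp [ha, hb]

/-- The determinant of an element of `U(0)` is a unit. -/
theorem inU_zero_det {g : GL (Fin 2) K} (hg : InU 0 g) :
    Valued.v (g : Matrix (Fin 2) (Fin 2) K).det = 1 := by
  have h1 : Valued.v (g : Matrix (Fin 2) (Fin 2) K).det ≤ 1 := by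
    rw [Matrix.det_fin_two]
    refine Valuation.map_sub_le _ ?_ ?_
    · rw [map_mul]; exact mul_le_one' (inU_zero_entry hg _ _) (inU_zero_entry hg _ _)
    · rw [map_mul]; exact mul_le_one' (inU_zero_entry hg _ _) (inU_zero_entry hg _ _)
  have h2 : Valued.v ((g⁻¹ : GL (Fin 2) K) : Matrix (Fin 2) (Fin 2) K).det ≤ 1 := by
    rw [Matrix.det_fin_two]
    refine Valuation.map_sub_le _ ?_ ?_
    · rw [map_mul]; exact mul_le_one' (inU_zero_inv_entry hg _ _) (inU_zero_inv_entry hg _ _)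
    · rw [map_mul]; exact mul_le_one' (inU_zero_inv_entry hg _ _) (inU_zero_inv_entry hg _ _)
  have h3 : (g : Matrix (Fin 2) (Fin 2) K).det
      * ((g⁻¹ : GL (Fin 2) K) : Matrix (Fin 2) (Fin 2) K).det = 1 := by
    rw [← Matrix.det_mul, ← Units.val_mul, mul_inv_cancel, Units.val_one, Matrix.det_one]
  have h4 : Valued.v (g : Matrix (Fin 2) (Fin 2) K).det
      * Valued.v ((g⁻¹ : GL (Fin 2) K) : Matrix (Fin 2) (Fin 2) K).det = 1 := by
    rw [← map_mul, h3, map_one]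
  refine le_antisymm h1 ?_
  by_contra hlt
  rw [not_le] at hlt
  have hpos : Valued.v ((g⁻¹ : GL (Fin 2) K) : Matrix (Fin 2) (Fin 2) K).det ≠ 0 := by
    intro h0; rw [h0, mul_zero] at h4; exact zero_ne_one h4
  have : Valued.v (g : Matrix (Fin 2) (Fin 2) K).det
      * Valued.v ((g⁻¹ : GL (Fin 2) K) : Matrix (Fin 2) (Fin 2) K).det < 1 := by
    calc _ < 1 * Valued.v ((g⁻¹ : GL (Fin 2) K) : Matrix (Fin 2) (Fin 2) K).det :=
          mul_lt_mul_of_pos_right hlt (zero_lt_iff.mpr hpos)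
      _ ≤ 1 := by rw [one_mul]; exact h2
  rw [h4] at this
  exact lt_irrefl _ this

/-! ## 3. The twisted centraliser of a diagonal element -/

section Cent

variable (s : K ≃+* K) (l : ℕ)

theorem fNorm_twist (d₁ d₂ q : K) (h : d₁ * s q = q * d₂) :
    ∀ n : ℕ, fNorm s n d₁ * (s ^ n) q = q * fNorm s n d₂
  | 0 => by simp [fNorm]
  | (n + 1) => by
    have ih := fNorm_twist d₁ d₂ q h n
    have e : (s ^ (n + 1)) q = s ((s ^ n) q) := by
      rw [pow_succ']; rfl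
    rw [e]
    show d₁ * s (fNorm s n d₁) * s ((s ^ n) q) = q * (d₂ * s (fNorm s n d₂))
    calc d₁ * s (fNorm s n d₁) * s ((s ^ n) q)
        = d₁ * s (fNorm s n d₁ * (s ^ n) q) := by rw [map_mul]; ring
      _ = d₁ * s (q * fNorm s n d₂) := by rw [ih]
      _ = (d₁ * s q) * s (fNorm s n d₂) := by rw [map_mul]; ring
      _ = q * (d₂ * s (fNorm s n d₂)) := by rw [h]; ring

theorem twist_zero (hord : ∀ y : K, (s ^ l) y = y) (d₁ d₂ q : K)
    (hN : fNorm s l d₁ ≠ fNorm s l d₂) (h : d₁ * s q = q * d₂) : q = 0 := by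
  by_contra hq
  apply hN
  have := fNorm_twist s d₁ d₂ q h l
  rw [hord, mul_comm] at this
  exact mul_left_cancel₀ hq this

variable {s l}

theorem inTwCent_iff_comm (δ t : GL (Fin 2) K) :
    InTwCent s δ t ↔ (δ : Matrix (Fin 2) (Fin 2) K) * (t : Matrix (Fin 2) (Fin 2) K).map s
      = (t : Matrix (Fin 2) (Fin 2) K) * (δ : Matrix (Fin 2) (Fin 2) K) := by
  unfold InTwCent
  constructor
  · intro h
    have h2 : δ * glAut s t = t * δ := by
      have := congrArg (fun z => t * z) h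
      simpa [mul_assoc] using this
    have := congrArg (fun z : GL (Fin 2) K => (z : Matrix (Fin 2) (Fin 2) K)) h2
    simpa [glAut_val] using this
  · intro h
    have h2 : δ * glAut s t = t * δ := by
      apply gl_ext
      simpa [glAut_val] using h
    rw [mul_assoc, h2]; simp

/-- The twisted centraliser of `diag(d₁, d₂)`, `N d₁ ≠ N d₂`: the diagonal matrices with
`s`-fixed entries. -/
theorem inTwCent_diag_iff (hord : ∀ y : K, (s ^ l) y = y) (d₁ d₂ : K) (δ₀ : GL (Fin 2) K)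
    (hδ : (δ₀ : Matrix (Fin 2) (Fin 2) K) = !![d₁, 0; 0, d₂])
    (hN : fNorm s l d₁ ≠ fNorm s l d₂) (t : GL (Fin 2) K) :
    InTwCent s δ₀ t ↔ ∃ p w : K, (t : Matrix (Fin 2) (Fin 2) K) = !![p, 0; 0, w] ∧
      s p = p ∧ s w = w := by
  obtain ⟨hd₁, hd₂⟩ := diag_ne_zero_of_upper δ₀ d₁ d₂ 0 hδ
  rw [inTwCent_iff_comm, hδ]
  constructor
  · intro h
    have ht : (t : Matrix (Fin 2) (Fin 2) K)
        = !![(t : Matrix (Fin 2) (Fin 2) K) 0 0, (t : Matrix (Fin 2) (Fin 2) K) 0 1;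
             (t : Matrix (Fin 2) (Fin 2) K) 1 0, (t : Matrix (Fin 2) (Fin 2) K) 1 1] :=
      Matrix.eta_fin_two _
    set p := (t : Matrix (Fin 2) (Fin 2) K) 0 0
    set q := (t : Matrix (Fin 2) (Fin 2) K) 0 1
    set r := (t : Matrix (Fin 2) (Fin 2) K) 1 0
    set w := (t : Matrix (Fin 2) (Fin 2) K) 1 1
    rw [ht] at h
    have h00 := congrFun (congrFun h 0) 0
    have h01 := congrFun (congrFun h 0) 1
    have h10 := congrFun (congrFun h 1) 0
    have h11 := congrFun (congrFun h 1) 1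
    simp [Matrix.mul_apply, Fin.sum_univ_two] at h00 h01 h10 h11
    have hq : q = 0 := twist_zero s l hord d₁ d₂ q hN h01
    have hr : r = 0 := twist_zero s l hord d₂ d₁ r (Ne.symm hN) h10
    refine ⟨p, w, ?_, ?_, ?_⟩
    · rw [ht, hq, hr]
    · have : d₁ * s p = d₁ * p := by rw [h00]; ring
      exact mul_left_cancel₀ hd₁ this
    · have : d₂ * s w = d₂ * w := by rw [h11]; ring
      exact mul_left_cancel₀ hd₂ this
  · rintro ⟨p, w, ht, hp, hw⟩
    rw [ht]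
    ext i j
    fin_cases i <;> fin_cases j <;> simp [Matrix.mul_apply, Fin.sum_univ_two, hp, hw, mul_comm]

theorem v_eq_one_of_sum_prod {p w : K} (h1 : Valued.v (p + w) ≤ 1)
    (h2 : Valued.v (p * w) = 1) : Valued.v p = 1 ∧ Valued.v w = 1 := by
  rw [map_mul] at h2
  have key : ∀ a b : K, Valued.v (a + b) ≤ 1 → Valued.v a * Valued.v b = 1 →
      ¬ Valued.v a < 1 := by
    intro a b hab hprod hlt
    have hb : 1 < Valued.v b := by
      by_contra hb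
      rw [not_lt] at hb
      have hpos : Valued.v a ≠ 0 := by
        intro h0; rw [h0, zero_mul] at hprod; exact zero_ne_one hprod
      have : Valued.v a * Valued.v b < 1 :=
        calc Valued.v a * Valued.v b ≤ Valued.v a * 1 := mul_le_mul_right hb _
          _ = Valued.v a := mul_one _
          _ < 1 := hlt
      rw [hprod] at this
      exact lt_irrefl _ this
    have hlt' : Valued.v a < Valued.v b := lt_trans hlt hb
    have := Valuation.map_add_eq_of_lt_left (v := (Valued.v : Valuation K Γ₀)) hlt'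
    rw [add_comm, this] at hab
    exact absurd hab (not_le.mpr hb)
  have hp : ¬ Valued.v p < 1 := key p w h1 h2
  have hw : ¬ Valued.v w < 1 := key w p (by rwa [add_comm]) (by rwa [mul_comm])
  rw [not_lt] at hp hw
  have hp' : Valued.v p ≤ 1 := by
    by_contra hgt
    rw [not_le] at hgt
    have : 1 < Valued.v p * Valued.v w :=
      calc (1 : Γ₀) < Valued.v p := hgt
        _ = Valued.v p * 1 := (mul_one _).symm
        _ ≤ Valued.v p * Valued.v w := mul_le_mul_right hw _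
    rw [h2] at this
    exact lt_irrefl _ this
  have hpe : Valued.v p = 1 := le_antisymm hp' hp
  refine ⟨hpe, ?_⟩
  rw [hpe, one_mul] at h2
  exact h2

/-- The compact part of the twisted centraliser of `diag(d₁, d₂)`. -/
theorem inTwCentC_diag_iff (hord : ∀ y : K, (s ^ l) y = y) (d₁ d₂ : K) (δ₀ : GL (Fin 2) K)
    (hδ : (δ₀ : Matrix (Fin 2) (Fin 2) K) = !![d₁, 0; 0, d₂])
    (hN : fNorm s l d₁ ≠ fNorm s l d₂) (t : GL (Fin 2) K) :
    InTwCentC s δ₀ t ↔ ∃ p w : K, (t : Matrix (Fin 2) (Fin 2) K) = !![p, 0; 0, w] ∧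
      s p = p ∧ s w = w ∧ Valued.v p = 1 ∧ Valued.v w = 1 := by
  unfold InTwCentC
  rw [inTwCent_diag_iff hord d₁ d₂ δ₀ hδ hN]
  constructor
  · rintro ⟨⟨p, w, ht, hp, hw⟩, htr, hdet⟩
    rw [ht] at htr hdet
    simp [Matrix.trace_fin_two_of, Matrix.det_fin_two_of] at htr hdet
    obtain ⟨h1, h2⟩ := v_eq_one_of_sum_prod htr (by rw [map_mul]; exact hdet)
    exact ⟨p, w, ht, hp, hw, h1, h2⟩
  · rintro ⟨p, w, ht, hp, hw, h1, h2⟩
    refine ⟨⟨p, w, ht, hp, hw⟩, ?_, ?_⟩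
    · rw [ht]
      simp only [Matrix.trace_fin_two_of]
      exact Valuation.map_add_le _ h1.le h2.le
    · rw [ht]
      simp [Matrix.det_fin_two_of, h1, h2]

end Cent

/-! ## 4. Powers of a uniformiser -/

section Unif

variable {ϖ : K}

theorem unif_ne_zero (hϖ : Valued.v ϖ = WithZero.exp (-1 : ℤ)) : ϖ ≠ 0 := by
  intro h
  rw [h, map_zero] at hϖ
  exact WithZero.exp_ne_zero hϖ.symm

theorem v_unif_zpow (hϖ : Valued.v ϖ = WithZero.exp (-1 : ℤ)) (a : ℤ) :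
    Valued.v (ϖ ^ a) = WithZero.exp (-a) := by
  rw [map_zpow₀, hϖ, ← WithZero.exp_zsmul]
  congr 1
  simp

/-- Every nonzero element is a power of the uniformiser times a unit. -/
theorem exists_unif_decomp (hϖ : Valued.v ϖ = WithZero.exp (-1 : ℤ)) {x : K} (hx : x ≠ 0) :
    ∃ (m : ℤ) (ε : K), Valued.v ε = 1 ∧ x = ϖ ^ m * ε := by
  have hvx : Valued.v x ≠ 0 := by simpa using hx
  refine ⟨- WithZero.log (Valued.v x), x / ϖ ^ (- WithZero.log (Valued.v x)), ?_, ?_⟩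
  · rw [map_div₀, v_unif_zpow hϖ, neg_neg, WithZero.exp_log hvx]
    exact div_self hvx
  · have h0 : ϖ ^ (- WithZero.log (Valued.v x)) ≠ 0 := zpow_ne_zero _ (unif_ne_zero hϖ)
    field_simp

theorem zpow_nonneg_of_v_le (hϖ : Valued.v ϖ = WithZero.exp (-1 : ℤ)) {a : ℤ}
    (h : Valued.v (ϖ ^ a) ≤ 1) : 0 ≤ a := by
  rw [v_unif_zpow hϖ, ← WithZero.exp_zero, WithZero.exp_le_exp] at h
  omega

/-- `x < 1` in `ℤᵐ⁰` implies `x ≤ exp (-1)`. -/
theorem le_exp_neg_one_of_lt_one {x : Γ₀} (h : x < 1) : x ≤ WithZero.exp (-1 : ℤ) := by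
  by_cases hx : x = 0
  · rw [hx]; simp
  · rw [← WithZero.exp_log hx] at h ⊢
    rw [← WithZero.exp_zero, WithZero.exp_lt_exp] at h
    rw [WithZero.exp_le_exp]
    omega

end Unif

/-! ## 5. The data of the unfolding -/

/-- The lattice of the powers of the uniformiser in the diagonal torus. -/
def LamP (ϖ : K) (g : GL (Fin 2) K) : Prop :=
  ∃ a b : ℤ, (g : Matrix (Fin 2) (Fin 2) K) = !![ϖ ^ a, 0; 0, ϖ ^ b]

/-- The representatives `n(b)`, `b ∈ B`. -/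
def XB (B : Set K) : Set (GL (Fin 2) K) := nG '' B

section Data

variable {s : K ≃+* K} {l : ℕ} {ϖ : K}

theorem mul_diag_val {a b : GL (Fin 2) K} {p w p' w' : K}
    (ha : (a : Matrix (Fin 2) (Fin 2) K) = !![p, 0; 0, w])
    (hb : (b : Matrix (Fin 2) (Fin 2) K) = !![p', 0; 0, w']) :
    ((a * b : GL (Fin 2) K) : Matrix (Fin 2) (Fin 2) K) = !![p * p', 0; 0, w * w'] := by
  rw [Units.val_mul, ha, hb]
  ext i j
  fin_cases i <;> fin_cases j <;> simp [Matrix.mul_apply, Fin.sum_univ_two]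

theorem inv_diag_val {a : GL (Fin 2) K} {p w : K}
    (ha : (a : Matrix (Fin 2) (Fin 2) K) = !![p, 0; 0, w]) :
    ((a⁻¹ : GL (Fin 2) K) : Matrix (Fin 2) (Fin 2) K) = !![p⁻¹, 0; 0, w⁻¹] := by
  obtain ⟨hp, hw⟩ := diag_ne_zero_of_upper a p w 0 ha
  have : a = dG p w hp hw := gl_ext (by rw [ha, dG_val])
  rw [this, dG_inv_val]

theorem lamP_mul (hϖ0 : ϖ ≠ 0) (a b : GL (Fin 2) K) (ha : LamP ϖ a) (hb : LamP ϖ b) :
    LamP ϖ (a * b) := by
  obtain ⟨a₁, a₂, ha⟩ := ha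
  obtain ⟨b₁, b₂, hb⟩ := hb
  refine ⟨a₁ + b₁, a₂ + b₂, ?_⟩
  rw [mul_diag_val ha hb, zpow_add₀ hϖ0, zpow_add₀ hϖ0]

theorem lamP_inv (a : GL (Fin 2) K) (ha : LamP ϖ a) : LamP ϖ a⁻¹ := by
  obtain ⟨a₁, a₂, ha⟩ := ha
  refine ⟨-a₁, -a₂, ?_⟩
  rw [inv_diag_val ha, zpow_neg, zpow_neg]

theorem one_val_eq : ((1 : GL (Fin 2) K) : Matrix (Fin 2) (Fin 2) K) = !![1, 0; 0, 1] := by
  rw [Units.val_one]
  ext i j
  fin_cases i <;> fin_cases j <;> simp

/-- **The data of the unfolding at a diagonal element.** -/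
theorem unfoldData_diag (hord : ∀ y : K, (s ^ l) y = y)
    (hval : ∀ y : K, Valued.v (s y) = Valued.v y)
    (hϖ : Valued.v ϖ = WithZero.exp (-1 : ℤ)) (hsϖ : s ϖ = ϖ)
    (d₁ d₂ : K) (δ₀ : GL (Fin 2) K)
    (hδ : (δ₀ : Matrix (Fin 2) (Fin 2) K) = !![d₁, 0; 0, d₂])
    (hN : fNorm s l d₁ ≠ fNorm s l d₂) (B : Set K) (hB : IsReprSet B) :
    UnfoldData (glAut s) (InU 0) (InTwCentC s) δ₀ (LamP ϖ) (XB B) := by
  have hϖ0 : ϖ ≠ 0 := unif_ne_zero hϖ
  have hC := inTwCentC_diag_iff hord d₁ d₂ δ₀ hδ hN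
  have hT := inTwCent_diag_iff hord d₁ d₂ δ₀ hδ hN
  refine
    { U_one := inU_zero_one
      U_mul := H944.inU_mul944 0
      U_inv := H944.inU_inv944 0
      C_cent := fun t ht => ht.1
      C_mul := ?_
      C_inv := ?_
      C_conj := fun x t => H944.inTwCentC_conj944 s δ₀ x t
      U_C := ?_
      Lam_mul := lamP_mul hϖ0
      Lam_inv := lamP_inv
      Lam_cent := ?_
      Lam_C := ?_
      decomp := ?_
      cover := ?_
      uniq := ?_ }
  · -- C_mul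
    intro a b ha hb
    obtain ⟨p, w, ha, hp, hw, vp, vw⟩ := (hC a).1 ha
    obtain ⟨p', w', hb, hp', hw', vp', vw'⟩ := (hC b).1 hb
    refine (hC (a * b)).2 ⟨p * p', w * w', mul_diag_val ha hb, ?_, ?_, ?_, ?_⟩
    · rw [map_mul, hp, hp']
    · rw [map_mul, hw, hw']
    · rw [map_mul, vp, vp', mul_one]
    · rw [map_mul, vw, vw', mul_one]
  · -- C_inv
    intro a ha
    obtain ⟨p, w, ha, hp, hw, vp, vw⟩ := (hC a).1 ha
    refine (hC a⁻¹).2 ⟨p⁻¹, w⁻¹, inv_diag_val ha, ?_, ?_, ?_, ?_⟩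
    · rw [map_inv₀, hp]
    · rw [map_inv₀, hw]
    · rw [map_inv₀, vp, inv_one]
    · rw [map_inv₀, vw, inv_one]
  · -- U_C
    intro x u hu h
    refine ⟨h, ?_, inU_zero_det hu⟩
    rw [Matrix.trace_fin_two]
    exact Valuation.map_add_le _ (inU_zero_entry hu _ _) (inU_zero_entry hu _ _)
  · -- Lam_cent
    rintro t ⟨a, b, ht⟩
    exact (hT t).2 ⟨ϖ ^ a, ϖ ^ b, ht, by rw [map_zpow₀, hsϖ], by rw [map_zpow₀, hsϖ]⟩
  · -- Lam_C
    rintro t ⟨a, b, ht⟩ hc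
    obtain ⟨p, w, ht', -, -, vp, vw⟩ := (hC t).1 hc
    have h00 : ϖ ^ a = p := by
      have := congrFun (congrFun (ht.symm.trans ht') 0) 0
      simpa using this
    have h11 : ϖ ^ b = w := by
      have := congrFun (congrFun (ht.symm.trans ht') 1) 1
      simpa using this
    have ha0 : a = 0 := by
      have := v_unif_zpow hϖ a
      rw [h00, vp, eq_comm, WithZero.exp_eq_one] at this
      omega
    have hb0 : b = 0 := by
      have := v_unif_zpow hϖ b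
      rw [h11, vw, eq_comm, WithZero.exp_eq_one] at this
      omega
    apply gl_ext
    rw [ht, ha0, hb0, one_val_eq]
    simp
  · -- decomp
    intro t ht
    obtain ⟨p, w, ht, hp, hw⟩ := (hT t).1 ht
    obtain ⟨hp0, hw0⟩ := diag_ne_zero_of_upper t p w 0 ht
    obtain ⟨m₁, ε₁, vε₁, hpε⟩ := exists_unif_decomp hϖ hp0
    obtain ⟨m₂, ε₂, vε₂, hwε⟩ := exists_unif_decomp hϖ hw0
    have hε₁0 : ε₁ ≠ 0 := by
      intro h; rw [h, map_zero] at vε₁; exact zero_ne_one vε₁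
    have hε₂0 : ε₂ ≠ 0 := by
      intro h; rw [h, map_zero] at vε₂; exact zero_ne_one vε₂
    have hz₁ : ϖ ^ m₁ ≠ 0 := zpow_ne_zero _ hϖ0
    have hz₂ : ϖ ^ m₂ ≠ 0 := zpow_ne_zero _ hϖ0
    have sε₁ : s ε₁ = ε₁ := by
      have h1 : s p = ϖ ^ m₁ * s ε₁ := by rw [hpε, map_mul, map_zpow₀, hsϖ]
      rw [hp, hpε] at h1
      exact (mul_left_cancel₀ hz₁ h1).symm
    have sε₂ : s ε₂ = ε₂ := by
      have h1 : s w = ϖ ^ m₂ * s ε₂ := by rw [hwε, map_mul, map_zpow₀, hsϖ]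
      rw [hw, hwε] at h1
      exact (mul_left_cancel₀ hz₂ h1).symm
    refine ⟨dG (ϖ ^ m₁) (ϖ ^ m₂) hz₁ hz₂, dG ε₁ ε₂ hε₁0 hε₂0, ⟨m₁, m₂, dG_val _ _ _ _⟩,
      (hC _).2 ⟨ε₁, ε₂, dG_val _ _ _ _, sε₁, sε₂, vε₁, vε₂⟩, ?_⟩
    apply gl_ext
    rw [mul_diag_val (dG_val _ _ _ _) (dG_val _ _ _ _), ht, hpε, hwε]
  · -- cover
    intro g
    obtain ⟨p, κ, a, b, u, hp, hκ, rfl⟩ := H546.iwasawa_valued_h546 g
    obtain ⟨ha0, hb0⟩ := diag_ne_zero_of_upper p a b u hp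
    obtain ⟨m₁, ε₁, vε₁, haε⟩ := exists_unif_decomp hϖ ha0
    obtain ⟨m₂, ε₂, vε₂, hbε⟩ := exists_unif_decomp hϖ hb0
    have hε₁0 : ε₁ ≠ 0 := by
      intro h; rw [h, map_zero] at vε₁; exact zero_ne_one vε₁
    have hε₂0 : ε₂ ≠ 0 := by
      intro h; rw [h, map_zero] at vε₂; exact zero_ne_one vε₂
    have hz₁ : ϖ ^ m₁ ≠ 0 := zpow_ne_zero _ hϖ0
    have hz₂ : ϖ ^ m₂ ≠ 0 := zpow_ne_zero _ hϖ0
    obtain ⟨b₀, ⟨hb₀B, hb₀⟩, -⟩ := hB (u / (ϖ ^ m₁ * ε₂))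
    set o := u / (ϖ ^ m₁ * ε₂) - b₀ with ho
    refine ⟨nG b₀, ⟨b₀, hb₀B, rfl⟩, dG (ϖ ^ m₁) (ϖ ^ m₂) hz₁ hz₂,
      nG o * dG ε₁ ε₂ hε₁0 hε₂0 * κ, ⟨m₁, m₂, dG_val _ _ _ _⟩,
      H944.inU_mul944 0 _ _ (H944.inU_mul944 0 _ _ (nG_inU hb₀)
        (dG_inU vε₁ vε₂ hε₁0 hε₂0)) hκ, ?_⟩
    have hp' : p = dG (ϖ ^ m₁) (ϖ ^ m₂) hz₁ hz₂ * nG b₀ * (nG o * dG ε₁ ε₂ hε₁0 hε₂0) := by
      apply gl_ext
      rw [hp]
      simp only [Units.val_mul, dG_val, nG_val]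
      ext i j
      fin_cases i <;> fin_cases j <;> simp [Matrix.mul_apply, Fin.sum_univ_two, haε, hbε]
      rw [ho]
      field_simp
      ring
    rw [hp']
    simp only [mul_assoc]
  · -- uniq
    rintro x ⟨b, hbB, rfl⟩ x' ⟨b', hb'B, rfl⟩ ⟨t, u, ⟨a, c, ht⟩, hu, hx⟩
    have hmat := congrArg (fun z : GL (Fin 2) K => (z : Matrix (Fin 2) (Fin 2) K)) hx
    simp only [Units.val_mul, nG_val, ht] at hmat
    have hue : (u : Matrix (Fin 2) (Fin 2) K)
        = !![(u : Matrix (Fin 2) (Fin 2) K) 0 0, (u : Matrix (Fin 2) (Fin 2) K) 0 1;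
             (u : Matrix (Fin 2) (Fin 2) K) 1 0, (u : Matrix (Fin 2) (Fin 2) K) 1 1] :=
      Matrix.eta_fin_two _
    have v00 := inU_zero_entry hu 0 0
    have v01 := inU_zero_entry hu 0 1
    have v11 := inU_zero_entry hu 1 1
    have vdet := inU_zero_det hu
    rw [Matrix.det_fin_two] at vdet
    set u00 := (u : Matrix (Fin 2) (Fin 2) K) 0 0
    set u01 := (u : Matrix (Fin 2) (Fin 2) K) 0 1
    set u10 := (u : Matrix (Fin 2) (Fin 2) K) 1 0
    set u11 := (u : Matrix (Fin 2) (Fin 2) K) 1 1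
    rw [hue] at hmat
    have h00 := congrFun (congrFun hmat 0) 0
    have h01 := congrFun (congrFun hmat 0) 1
    have h10 := congrFun (congrFun hmat 1) 0
    have h11 := congrFun (congrFun hmat 1) 1
    simp [Matrix.mul_apply, Fin.sum_univ_two] at h00 h01 h10 h11
    have hza : ϖ ^ a ≠ 0 := zpow_ne_zero _ hϖ0
    have hzc : ϖ ^ c ≠ 0 := zpow_ne_zero _ hϖ0
    have hu10 : u10 = 0 := by
      rcases h10 with h | h
      · exact absurd h hzc
      · exact h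
    have hu11 : u11 = ϖ ^ (-c) := by
      rw [zpow_neg]
      field_simp
      rw [mul_comm]; exact h11.symm
    have hu00 : u00 = ϖ ^ (-a) := by
      rw [hu10, mul_zero, add_zero] at h00
      rw [zpow_neg]
      field_simp
      rw [mul_comm]; exact h00.symm
    have ha_nonpos : 0 ≤ -a := zpow_nonneg_of_v_le hϖ (by rw [← hu00]; exact v00)
    have hc_nonpos : 0 ≤ -c := zpow_nonneg_of_v_le hϖ (by rw [← hu11]; exact v11)
    have hsum : -a + -c = 0 := by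
      rw [hu10, mul_zero, sub_zero, hu00, hu11, ← zpow_add₀ hϖ0, v_unif_zpow hϖ,
        WithZero.exp_eq_one] at vdet
      omega
    have ha0 : a = 0 := by omega
    have hc0 : c = 0 := by omega
    rw [ha0] at h01
    rw [hu11, hc0] at h01
    simp at h01
    -- h01 : b' = u01 + b
    have hbb : Valued.v (b' - b) ≤ 1 := by
      have : b' - b = u01 := by rw [h01]; ring
      rw [this]; exact v01
    obtain ⟨b₁, -, huniq⟩ := hB b'
    have e1 : b = b₁ := huniq b ⟨hbB, hbb⟩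
    have e2 : b' = b₁ := huniq b' ⟨hb'B, by simp⟩
    rw [e1, e2]

end Data

/-! ## 6. Finiteness -/

section Finite

/-- Representatives of `𝒪 / ϖ^N 𝒪`. -/
theorem exists_approx_finset {Q : ℕ} (hK : IsLocalField K Q) {ϖ : K}
    (hϖ : Valued.v ϖ = WithZero.exp (-1 : ℤ)) :
    ∀ N : ℕ, ∃ S : Finset K, ∀ z : K, Valued.v z ≤ 1 →
      ∃ σ ∈ S, Valued.v (z - σ) ≤ WithZero.exp (-(N : ℤ))
  | 0 => ⟨{0}, fun z hz => ⟨0, by simp, by simpa using hz⟩⟩
  | (N + 1) => by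
    classical
    obtain ⟨S, hS⟩ := exists_approx_finset hK hϖ N
    obtain ⟨T, -, -, -, hT⟩ := hK.residue
    have hϖ0 : ϖ ≠ 0 := unif_ne_zero hϖ
    refine ⟨(T ×ˢ S).image (fun p => p.1 + ϖ * p.2), ?_⟩
    intro z hz
    obtain ⟨t, htT, ht⟩ := hT z hz
    have ht' := le_exp_neg_one_of_lt_one ht
    have hz₁ : Valued.v ((z - t) / ϖ) ≤ 1 := by
      rw [map_div₀, hϖ]
      exact (div_le_one₀ (zero_lt_iff.mpr WithZero.exp_ne_zero)).mpr ht'
    obtain ⟨σ, hσS, hσ⟩ := hS _ hz₁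
    refine ⟨t + ϖ * σ, Finset.mem_image.mpr ⟨(t, σ), Finset.mem_product.mpr ⟨htT, hσS⟩, rfl⟩, ?_⟩
    have e : z - (t + ϖ * σ) = ϖ * ((z - t) / ϖ - σ) := by
      field_simp
      ring
    rw [e, map_mul, hϖ]
    have : (WithZero.exp (-((N + 1 : ℕ) : ℤ)) : Γ₀)
        = WithZero.exp (-1 : ℤ) * WithZero.exp (-(N : ℤ)) := by
      rw [← WithZero.exp_add]
      congr 1
      push_cast
      ring
    rw [this]
    exact mul_le_mul_right hσ _

theorem reprSet_bounded_finite_nat {Q : ℕ} (hK : IsLocalField K Q) {B : Set K}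
    (hB : IsReprSet B) (N : ℕ) :
    {b : K | b ∈ B ∧ Valued.v b ≤ WithZero.exp (N : ℤ)}.Finite := by
  classical
  obtain ⟨ϖ, hϖ⟩ := hK.unif
  have hϖ0 : ϖ ≠ 0 := unif_ne_zero hϖ
  obtain ⟨S, hS⟩ := exists_approx_finset hK hϖ N
  have hvN : Valued.v (ϖ ^ N) = WithZero.exp (-(N : ℤ)) := by
    have := v_unif_zpow hϖ (N : ℤ)
    rwa [zpow_natCast] at this
  have hN0 : ϖ ^ N ≠ 0 := pow_ne_zero _ hϖ0
  refine Set.Finite.subset
    ((S.finite_toSet).image (fun σ => (hB (σ / ϖ ^ N)).choose)) ?_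
  rintro b ⟨hbB, hb⟩
  have hz : Valued.v (ϖ ^ N * b) ≤ 1 := by
    rw [map_mul, hvN]
    calc WithZero.exp (-(N : ℤ)) * Valued.v b
        ≤ WithZero.exp (-(N : ℤ)) * WithZero.exp (N : ℤ) := mul_le_mul_right hb _
      _ = 1 := by rw [← WithZero.exp_add]; simp
  obtain ⟨σ, hσS, hσ⟩ := hS _ hz
  refine ⟨σ, hσS, ?_⟩
  have hspec := (hB (σ / ϖ ^ N)).choose_spec
  refine (hspec.2 b ⟨hbB, ?_⟩).symm
  have e : σ / ϖ ^ N - b = - ((ϖ ^ N * b - σ) / ϖ ^ N) := by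
    field_simp
    ring
  rw [e, Valuation.map_neg, map_div₀, hvN]
  exact (div_le_one₀ (zero_lt_iff.mpr WithZero.exp_ne_zero)).mpr hσ

theorem reprSet_bounded_finite {Q : ℕ} (hK : IsLocalField K Q) {B : Set K}
    (hB : IsReprSet B) (M : Γ₀) : {b : K | b ∈ B ∧ Valued.v b ≤ M}.Finite := by
  have hM : ∃ N : ℕ, M ≤ WithZero.exp (N : ℤ) := by
    by_cases h0 : M = 0
    · exact ⟨0, by rw [h0]; simp⟩
    · refine ⟨(WithZero.log M).toNat, ?_⟩
      rw [← WithZero.exp_log h0, WithZero.exp_le_exp]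
      exact Int.self_le_toNat _
  obtain ⟨N, hN⟩ := hM
  exact (reprSet_bounded_finite_nat hK hB N).subset
    (fun b hb => ⟨hb.1, le_trans hb.2 hN⟩)

end Finite

/-! ## 7. The classes of the `y_b` and the leaf -/

section Leaf

variable {s : K ≃+* K} {l : ℕ}

/-- The twisted conjugate of `δ₀ = diag(d₁, d₂)` by `n(b)`. -/
theorem twc_nG (d₁ d₂ : K) (δ₀ : GL (Fin 2) K)
    (hδ : (δ₀ : Matrix (Fin 2) (Fin 2) K) = !![d₁, 0; 0, d₂]) (b : K) :
    (((nG b)⁻¹ * δ₀ * glAut s (nG b) : GL (Fin 2) K) : Matrix (Fin 2) (Fin 2) K)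
      = !![d₁, d₁ * s b - d₂ * b; 0, d₂] := by
  simp only [Units.val_mul, nG_inv_val, glAut_val, nG_val, hδ]
  ext i j
  fin_cases i <;> fin_cases j <;> simp [Matrix.mul_apply, Fin.sum_univ_two]
  ring

/-- Two representatives in the same `U`-class have comparable valuations. -/
theorem class_bound (hord : ∀ y : K, (s ^ l) y = y)
    (hval : ∀ y : K, Valued.v (s y) = Valued.v y)
    (d₁ d₂ : K) (δ₀ : GL (Fin 2) K)
    (hδ : (δ₀ : Matrix (Fin 2) (Fin 2) K) = !![d₁, 0; 0, d₂])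
    (hN : fNorm s l d₁ ≠ fNorm s l d₂) (y : GL (Fin 2) K) (b₁ b₂ : K) (u₁ u₂ : GL (Fin 2) K)
    (hu₁ : InU 0 u₁) (hu₂ : InU 0 u₂)
    (h₁ : (nG b₁)⁻¹ * δ₀ * glAut s (nG b₁) = u₁⁻¹ * y * glAut s u₁)
    (h₂ : (nG b₂)⁻¹ * δ₀ * glAut s (nG b₂) = u₂⁻¹ * y * glAut s u₂) :
    Valued.v b₂ ≤ max 1 (Valued.v b₁) := by
  -- y = twc δ₀ (n(b₁) u₁⁻¹)
  have hy : y = twc (glAut s) δ₀ (nG b₁ * u₁⁻¹) := by
    rw [← twc_twc]
    show y = (u₁⁻¹)⁻¹ * ((nG b₁)⁻¹ * δ₀ * glAut s (nG b₁)) * glAut s u₁⁻¹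
    rw [h₁, map_inv]
    group
  have h₂' : twc (glAut s) δ₀ (nG b₂) = twc (glAut s) δ₀ (nG b₁ * u₁⁻¹ * u₂) := by
    rw [← twc_twc (glAut s) δ₀ (nG b₁ * u₁⁻¹) u₂, ← hy]
    exact h₂
  rw [twc_eq_iff] at h₂'
  set τ := nG b₂ * (nG b₁ * u₁⁻¹ * u₂)⁻¹ with hτ
  obtain ⟨p, q, hτm, -, -⟩ := (inTwCent_diag_iff hord d₁ d₂ δ₀ hδ hN τ).1 h₂'
  -- w = u₂⁻¹ u₁ = n(b₂)⁻¹ τ n(b₁)
  set w := u₂⁻¹ * u₁ with hw
  have hwU : InU 0 w := H944.inU_mul944 0 _ _ (H944.inU_inv944 0 _ hu₂) hu₁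
  have hwe : w = (nG b₂)⁻¹ * τ * nG b₁ := by
    rw [hτ, hw]; group
  have hwm : (w : Matrix (Fin 2) (Fin 2) K) = !![p, p * b₁ - b₂ * q; 0, q] := by
    rw [hwe]
    simp only [Units.val_mul, nG_inv_val, nG_val, hτm]
    ext i j
    fin_cases i <;> fin_cases j <;> simp [Matrix.mul_apply, Fin.sum_univ_two]
    ring
  have v00 := inU_zero_entry hwU 0 0
  have v01 := inU_zero_entry hwU 0 1
  have v11 := inU_zero_entry hwU 1 1
  have vdet := inU_zero_det hwU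
  rw [hwm] at v00 v01 v11 vdet
  simp [Matrix.det_fin_two_of] at v00 v01 v11 vdet
  -- v p = v q = 1
  have hp1 : Valued.v p = 1 := by
    refine le_antisymm v00 ?_
    by_contra hlt
    rw [not_le] at hlt
    have hq0 : Valued.v q ≠ 0 := by
      intro h0; rw [h0, mul_zero] at vdet; exact zero_ne_one vdet
    have : Valued.v p * Valued.v q < 1 :=
      calc Valued.v p * Valued.v q < 1 * Valued.v q :=
            mul_lt_mul_of_pos_right hlt (zero_lt_iff.mpr hq0)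
        _ ≤ 1 := by rw [one_mul]; exact v11
    rw [vdet] at this
    exact lt_irrefl _ this
  have hq1 : Valued.v q = 1 := by rw [hp1, one_mul] at vdet; exact vdet
  have e : b₂ = (p * b₁ - (p * b₁ - b₂ * q)) / q := by
    have hq0 : q ≠ 0 := by
      intro h0; rw [h0, map_zero] at hq1; exact zero_ne_one hq1
    field_simp
    ring
  rw [e, map_div₀, hq1, div_one]
  refine le_trans (Valuation.map_sub _ _ _) ?_
  rw [map_mul, hp1, one_mul]
  exact max_le (le_max_right _ _) (le_trans v01 (le_max_left _ _))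

theorem nG_injective : Function.Injective (nG : K → GL (Fin 2) K) := by
  intro a b h
  have := congrArg (fun z : GL (Fin 2) K => (z : Matrix (Fin 2) (Fin 2) K) 0 1) h
  simpa using this

/-- **T6.12e `OrbitParamC`.** -/
theorem orbitParamC227 : OrbitParamC := by
  intro k k' _ _ _ _ q l i s hk hk' hext Φ hΦ d₁ d₂ δ₀ hδ hN c hc B Y hB hY
  obtain ⟨ϖ₀, hϖ₀⟩ := hk.unif
  have hϖ : Valued.v (i ϖ₀) = WithZero.exp (-1 : ℤ) := by
    rw [hext.val_i, pow_one, hϖ₀]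
  have hsϖ : s (i ϖ₀) = i ϖ₀ := hext.cyc.fix_i ϖ₀
  have hord := hext.cyc.order
  have hval := hext.val_s
  have D := unfoldData_diag hord hval hϖ hsϖ d₁ d₂ δ₀ hδ hN B hB
  have hφ : ∀ u y : GL (Fin 2) k', InU 0 u → Φ (u⁻¹ * y * glAut s u) = Φ y :=
    fun u y hu => hΦ u⁻¹ (glAut s u) y (H944.inU_inv944 0 u hu) (H944.inU_glAut944 s hval 0 u hu)
  have hc' : IsOrbSumGen (glAut s) (InU 0) (InTwCentC s) Φ δ₀ c := hc
  -- finiteness of the support
  have hfin : {x | x ∈ XB B ∧ Φ (x⁻¹ * δ₀ * glAut s x) ≠ 0}.Finite := by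
    obtain ⟨R, h1, h2, h3, -⟩ := hc'
    have hcover : {x | x ∈ XB B ∧ Φ (x⁻¹ * δ₀ * glAut s x) ≠ 0} ⊆
        ⋃ y ∈ (R : Set (GL (Fin 2) k')),
          {x | x ∈ XB B ∧ ∃ u, InU 0 u ∧ x⁻¹ * δ₀ * glAut s x = u⁻¹ * y * glAut s u} := by
      rintro x ⟨hxX, hx⟩
      obtain ⟨y', hy'R, u, hu, he⟩ := h3 _ ⟨x, rfl⟩ hx
      exact Set.mem_biUnion (Finset.mem_coe.mpr hy'R) ⟨hxX, u, hu, he⟩
    refine Set.Finite.subset (Set.Finite.biUnion R.finite_toSet ?_) hcover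
    intro y _
    by_cases hne : ({x | x ∈ XB B ∧ ∃ u, InU 0 u ∧
        x⁻¹ * δ₀ * glAut s x = u⁻¹ * y * glAut s u} : Set (GL (Fin 2) k')).Nonempty
    · obtain ⟨x₁, ⟨b₁, hb₁B, rfl⟩, u₁, hu₁, he₁⟩ := hne
      refine Set.Finite.subset
        ((reprSet_bounded_finite hk' hB (max 1 (Valued.v b₁))).image nG) ?_
      rintro x₂ ⟨⟨b₂, hb₂B, rfl⟩, u₂, hu₂, he₂⟩
      exact ⟨b₂, ⟨hb₂B, class_bound hord hval d₁ d₂ δ₀ hδ hN y b₁ b₂ u₁ u₂ hu₁ hu₂ he₁ he₂⟩, rfl⟩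
    · rw [Set.not_nonempty_iff_eq_empty] at hne
      rw [hne]
      exact Set.finite_empty
  have h0 := orbSum_unfold_finsum D Φ hφ c hc' hfin
  rw [h0]
  show ∑ᶠ x ∈ nG '' B, Φ (x⁻¹ * δ₀ * glAut s x) = ∑ᶠ b ∈ B, Φ (Y b)
  rw [finsum_mem_image (nG_injective.injOn)]
  apply finsum_congr
  intro b
  apply finsum_congr
  intro _
  congr 1
  apply gl_ext
  rw [twc_nG d₁ d₂ δ₀ hδ b, hY b]

end Leaf

end Fermat.Agent.LT.T6.H227

end
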