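import Fermat.Agent.LT.T6.H179.LocRegOpen
import Fermat.Agent.LT.T6.H706.Ord
import Fermat.Agent.LT.T6.H420.OrbSumExFull

/-!
# Row LT, tower T6, leaf T6.18f `LocRegC783` CLOSED: cross-check build (helper227) -- OFF-MAIN

`locRegC227 : H783.LocRegC783`, unconditional, assembled in ONE tree from the delivered sub-leaves
(all files of the owners byte-identical):

* `H179.locReg_of_ord179 : OrdC179 → LocRegC783` (helper179; plugs `normalFormC166` (helper166),
  `rootC962` (helper962), `nearC_of568` (helper568), `normOpen_of227` (helper227),
  `tw_of_near179` (helper179));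
* `H706.ord_of706 : NormalFormC179 → OrbSumExC → OrbSumUniqC → OrdC179` (helper706);
* `H420.orbSumExC420 : OrbSumExC` (helper420), `H944.orbSumUniqC944 : OrbSumUniqC` (helper944).
-/

set_option autoImplicit false

namespace Fermat.Agent.LT.T6.H227

open Fermat.Agent.LT.T6

/-- **T6.18f.5** `OrdC179`, unconditional. -/
theorem ordC227 : H179.OrdC179 :=
  H706.ord_of706 H166.normalFormC166 H420.orbSumExC420 H944.orbSumUniqC944

/-- **T6.18f** `LocRegC783` (local matching at a regular point), unconditional. -/
theorem locRegC227 : H783.LocRegC783 :=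
  H179.locReg_of_ord179 ordC227

end Fermat.Agent.LT.T6.H227
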